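import Mathlib

/-!
# S48 (Deligne–Serre), brick C: the Lipschitz / divisor-sum half of weighted Eisenstein sums

For a weight `k ≥ 3` and a function `w : ZMod N → ℂ` with `w 0 = 0` and
`w (-a) = (-1) ^ k * w a` (a Dirichlet character of parity `k`, or the indicator of `{a, -a}`),
the absolutely convergent lattice sum

`∑_{(m, n) ∈ ℤ²} w(m) (m z + n)⁻ᵏ`

equals `2 (-2πi)ᵏ / (k-1)! · ∑_{n ≥ 1} (∑_{m ∣ n} w(m) (n/m)^{k-1}) qⁿ`, `q = exp(2πiz)`.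

* `wterm k w z p` : the summand, `p : ℤ × ℤ`.
* `summable_wterm` : absolute convergence (`[NeZero N]`, `3 ≤ k`).
* `tsum_wterm` : the identity above.
* `coeffW k w n` : the `n`-th coefficient, `coeffW k w 0 = 0`.
* `hasSum_wterm_qParam` : the identity in the `HasSum` shape consumed by Mathlib's
  `UpperHalfPlane.qExpansion_coeff_unique` / `ModularFormClass.qExpansion_coeff_unique`.
* `qExpansion_coeff_of_eq_tsum_wterm` : for a modular form `F` with `F z = ∑' p, wterm k w z p`,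
  `(qExpansion 1 F).coeff n = coeffW k w n`.
* the `eisSummand` / `Fin 2 → ℤ` shapes: `wterm_eq_eisSummand`, `tsum_fin_two`.

Mathlib only.
-/

set_option autoImplicit false

open Complex Real Nat EisensteinSeries
open UpperHalfPlane hiding I

namespace Fermat.Agent.S48.CharEis

noncomputable section

variable {N : ℕ}

/-- The weighted lattice summand `w(m) (m z + n)⁻ᵏ`. -/
def wterm (k : ℕ) (w : ZMod N → ℂ) (z : ℍ) (p : ℤ × ℤ) : ℂ :=
  w (p.1 : ZMod N) * (((p.1 : ℂ) * z + p.2) ^ k)⁻¹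

theorem wterm_eq_eisSummand (k : ℕ) (w : ZMod N → ℂ) (z : ℍ) (p : ℤ × ℤ) :
    wterm k w z p = w (p.1 : ZMod N) * eisSummand k ![p.1, p.2] z := by
  simp [wterm, eisSummand, zpow_neg]

/-- A function on `ZMod N`, `N ≠ 0`, is bounded. -/
theorem exists_bound [NeZero N] (w : ZMod N → ℂ) : ∃ C : ℝ, ∀ a, ‖w a‖ ≤ C := by
  classical
  let _ : Fintype (ZMod N) := ZMod.fintype N
  exact ⟨∑ a, ‖w a‖, fun a =>
    Finset.single_le_sum (f := fun a => ‖w a‖) (fun _ _ => norm_nonneg _) (Finset.mem_univ a)⟩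

/-- **Absolute convergence** of the weighted lattice sum. -/
theorem summable_wterm [NeZero N] {k : ℕ} (hk : 3 ≤ k) (w : ZMod N → ℂ) (z : ℍ) :
    Summable (wterm k w z) := by
  obtain ⟨C, hw⟩ := exists_bound w
  have h1 : Summable fun p : ℤ × ℤ => C * ‖eisSummand k ![p.1, p.2] z‖ :=
    ((summable_prod_eisSummand hk z).norm).mul_left C
  refine Summable.of_norm_bounded h1 fun p => ?_
  rw [wterm_eq_eisSummand, norm_mul]
  exact mul_le_mul_of_nonneg_right (hw _) (norm_nonneg _)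

/-- The rows `m` and `-m` of the lattice sum agree. -/
theorem tsum_row_neg (k : ℕ) (w : ZMod N → ℂ) (hodd : ∀ a, w (-a) = (-1) ^ k * w a) (z : ℍ)
    (m : ℤ) : ∑' n : ℤ, wterm k w z (-m, n) = ∑' n : ℤ, wterm k w z (m, n) := by
  rw [← tsum_comp_neg]
  refine tsum_congr fun n => ?_
  have h1 : ((-m : ℤ) : ℂ) * (z : ℂ) + ((-n : ℤ) : ℂ) = -((m : ℂ) * z + n) := by
    push_cast; ring
  have h2 : ((-1 : ℂ) ^ k) * ((-1 : ℂ) ^ k)⁻¹ = 1 :=
    mul_inv_cancel₀ (pow_ne_zero k (neg_ne_zero.mpr one_ne_zero))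
  have h3 : (-((m : ℂ) * z + n)) ^ k = (-1 : ℂ) ^ k * ((m : ℂ) * z + n) ^ k := neg_pow _ _
  simp only [wterm]
  rw [h1, h3, Int.cast_neg, hodd, mul_inv]
  calc (-1 : ℂ) ^ k * w (m : ZMod N) * (((-1 : ℂ) ^ k)⁻¹ * (((m : ℂ) * z + n) ^ k)⁻¹)
      = ((-1 : ℂ) ^ k * ((-1 : ℂ) ^ k)⁻¹) * (w (m : ZMod N) * (((m : ℂ) * z + n) ^ k)⁻¹) := by
        ring
    _ = w (m : ZMod N) * (((m : ℂ) * z + n) ^ k)⁻¹ := by rw [h2, one_mul]

/-- The lattice sum is twice the sum over the rows `m ≥ 1`. -/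
theorem tsum_wterm_eq_two_mul [NeZero N] {k : ℕ} (hk : 3 ≤ k) (w : ZMod N → ℂ) (hw0 : w 0 = 0)
    (hodd : ∀ a, w (-a) = (-1) ^ k * w a) (z : ℍ) :
    ∑' p : ℤ × ℤ, wterm k w z p =
      2 * ∑' m : ℕ+, ∑' n : ℤ, wterm k w z (((m : ℕ) : ℤ), n) := by
  rw [Summable.tsum_prod (summable_wterm hk w z),
    tsum_int_eq_zero_add_two_mul_tsum_pnat (fun m => tsum_row_neg k w hodd z m)
      (summable_wterm hk w z).prod]
  have h0 : ∑' n : ℤ, wterm k w z (0, n) = 0 := by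
    simp [wterm, hw0]
  rw [h0, zero_add, nsmul_eq_mul]
  norm_num

/-- One row, by the Lipschitz formula. -/
theorem tsum_row {k : ℕ} (hk : 3 ≤ k) (w : ZMod N → ℂ) (z : ℍ) (m : ℕ+) :
    ∑' n : ℤ, wterm k w z (((m : ℕ) : ℤ), n) =
      w ((m : ℕ) : ZMod N) * (((-2 * π * I) ^ k / (k - 1)!) *
        ∑' d : ℕ+, (d : ℂ) ^ (k - 1) * cexp (2 * π * I * z) ^ ((m : ℕ) * (d : ℕ))) := by
  have H := qExpansion_identity_pnat (k := k - 1) (by omega)
    ⟨(m : ℂ) * z, by simpa using z.2⟩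
  rw [show k - 1 + 1 = k by omega] at H
  have h1 : ∀ n : ℤ, wterm k w z (((m : ℕ) : ℤ), n) =
      w ((m : ℕ) : ZMod N) * (1 / ((((⟨(m : ℂ) * z, by simpa using z.2⟩ : ℍ) : ℂ)) + n) ^ k) := by
    intro n
    simp [wterm]
  rw [tsum_congr h1, tsum_mul_left, H]
  congr 2
  refine tsum_congr fun d => ?_
  congr 1
  rw [← Complex.exp_nat_mul, ← Complex.exp_nat_mul]
  congr 1
  push_cast
  ring

/-- Summability of a bounded weight against the divisor family. -/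
theorem summable_weighted (k : ℕ) {r : ℂ} (hr : ‖r‖ < 1) (a : ℕ → ℂ) {C : ℝ}
    (ha : ∀ m, ‖a m‖ ≤ C) :
    Summable fun c : ℕ+ × ℕ+ => a c.1 * ((c.2 : ℂ) ^ k * r ^ ((c.1 : ℕ) * (c.2 : ℕ))) := by
  have h1 : Summable fun c : ℕ+ × ℕ+ => C * ‖(c.2 : ℂ) ^ k * r ^ ((c.1 : ℕ) * (c.2 : ℕ))‖ :=
    ((summable_prod_mul_pow (𝕜 := ℂ) k hr).norm).mul_left C
  refine Summable.of_norm_bounded h1 fun c => ?_
  rw [norm_mul]
  exact mul_le_mul_of_nonneg_right (ha _) (norm_nonneg _)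

/-- The family indexed by divisor pairs. -/
theorem summable_weighted_sigma (k : ℕ) {r : ℂ} (hr : ‖r‖ < 1) (a : ℕ → ℂ) {C : ℝ}
    (ha : ∀ m, ‖a m‖ ≤ C) :
    Summable fun x : (Σ n : ℕ+, Nat.divisorsAntidiagonal n) =>
      a x.2.1.1 * ((x.2.1.2 : ℂ) ^ k * r ^ (x.2.1.1 * x.2.1.2)) := by
  have h := sigmaAntidiagonalEquivProd.summable_iff.mpr (summable_weighted k hr a ha)
  refine h.congr fun x => ?_
  simp [sigmaAntidiagonalEquivProd, divisorsAntidiagonalFactors]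

theorem sum_antidiagonal_weighted (k : ℕ) (r : ℂ) (a : ℕ → ℂ) (n : ℕ+) :
    ∑' x : Nat.divisorsAntidiagonal n, a x.1.1 * ((x.1.2 : ℂ) ^ k * r ^ (x.1.1 * x.1.2)) =
      (∑ m ∈ (n : ℕ).divisors, a m * (((n : ℕ) / m : ℕ) : ℂ) ^ k) * r ^ (n : ℕ) := by
  rw [tsum_fintype, Finset.univ_eq_attach,
    (n : ℕ).divisorsAntidiagonal.sum_attach
      (fun x : ℕ × ℕ => a x.1 * ((x.2 : ℂ) ^ k * r ^ (x.1 * x.2))),
    Nat.sum_divisorsAntidiagonal (fun x y : ℕ => a x * ((y : ℂ) ^ k * r ^ (x * y))),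
    Finset.sum_mul]
  refine Finset.sum_congr rfl fun i hi => ?_
  rw [Nat.mul_div_cancel' (Nat.dvd_of_mem_divisors hi)]
  ring

/-- **Weighted divisor sums**: `∑_{d, c ≥ 1} a(d) cᵏ r^{dc} = ∑_{e ≥ 1} (∑_{m ∣ e} a(m) (e/m)ᵏ) rᵉ`
for a bounded weight `a`. -/
theorem tsum_weighted (k : ℕ) {r : ℂ} (hr : ‖r‖ < 1) (a : ℕ → ℂ) {C : ℝ}
    (ha : ∀ m, ‖a m‖ ≤ C) :
    ∑' d : ℕ+, ∑' c : ℕ+, a d * ((c : ℂ) ^ k * r ^ ((d : ℕ) * (c : ℕ))) =
      ∑' e : ℕ+, (∑ m ∈ (e : ℕ).divisors, a m * (((e : ℕ) / m : ℕ) : ℂ) ^ k) * r ^ (e : ℕ) := by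
  have hs := summable_weighted k hr a ha
  have hσ := summable_weighted_sigma k hr a ha
  rw [← hs.tsum_prod, ← sigmaAntidiagonalEquivProd.tsum_eq]
  have h2 : ∀ x : (Σ n : ℕ+, Nat.divisorsAntidiagonal n),
      a ((sigmaAntidiagonalEquivProd x).1 : ℕ) *
        (((sigmaAntidiagonalEquivProd x).2 : ℂ) ^ k *
          r ^ (((sigmaAntidiagonalEquivProd x).1 : ℕ) * ((sigmaAntidiagonalEquivProd x).2 : ℕ))) =
      a x.2.1.1 * ((x.2.1.2 : ℂ) ^ k * r ^ (x.2.1.1 * x.2.1.2)) := by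
    intro x
    simp [sigmaAntidiagonalEquivProd, divisorsAntidiagonalFactors]
  rw [tsum_congr h2, hσ.tsum_sigma]
  exact tsum_congr fun n => sum_antidiagonal_weighted k r a n

/-- Summability of the `q`-series on `ℕ+`. -/
theorem summable_weighted_coeff (k : ℕ) {r : ℂ} (hr : ‖r‖ < 1) (a : ℕ → ℂ) {C : ℝ}
    (ha : ∀ m, ‖a m‖ ≤ C) :
    Summable fun e : ℕ+ =>
      (∑ m ∈ (e : ℕ).divisors, a m * (((e : ℕ) / m : ℕ) : ℂ) ^ k) * r ^ (e : ℕ) := by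
  have hσ := (summable_weighted_sigma k hr a ha).sigma
  refine hσ.congr fun n => ?_
  exact sum_antidiagonal_weighted k r a n

/-- The `n`-th `q`-coefficient of the weighted lattice sum. -/
def coeffW (k : ℕ) (w : ZMod N → ℂ) (n : ℕ) : ℂ :=
  2 * ((-2 * π * I) ^ k / (k - 1)!) *
    ∑ m ∈ n.divisors, w (m : ZMod N) * ((n / m : ℕ) : ℂ) ^ (k - 1)

@[simp] theorem coeffW_zero (k : ℕ) (w : ZMod N → ℂ) : coeffW k w 0 = 0 := by
  simp [coeffW]

theorem coeffW_one (k : ℕ) (w : ZMod N → ℂ) :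
    coeffW k w 1 = 2 * ((-2 * π * I) ^ k / (k - 1)!) * w 1 := by
  simp [coeffW]

/-- **The `q`-expansion of the weighted lattice sum** (`tsum` form). -/
theorem tsum_wterm [NeZero N] {k : ℕ} (hk : 3 ≤ k) (w : ZMod N → ℂ) (hw0 : w 0 = 0)
    (hodd : ∀ a, w (-a) = (-1) ^ k * w a) (z : ℍ) :
    ∑' p : ℤ × ℤ, wterm k w z p =
      2 * ((-2 * π * I) ^ k / (k - 1)!) *
        ∑' n : ℕ+, (∑ m ∈ (n : ℕ).divisors, w (m : ZMod N) * (((n : ℕ) / m : ℕ) : ℂ) ^ (k - 1)) *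
          cexp (2 * π * I * z) ^ (n : ℕ) := by
  obtain ⟨C, hw⟩ := exists_bound w
  have hr := norm_exp_two_pi_I_lt_one z
  have key : ∑' m : ℕ+, w ((m : ℕ) : ZMod N) * (((-2 * π * I) ^ k / (k - 1)!) *
        ∑' d : ℕ+, (d : ℂ) ^ (k - 1) * cexp (2 * π * I * z) ^ ((m : ℕ) * (d : ℕ))) =
      ((-2 * π * I) ^ k / (k - 1)!) * ∑' d : ℕ+, ∑' c : ℕ+,
        w ((d : ℕ) : ZMod N) * ((c : ℂ) ^ (k - 1) * cexp (2 * π * I * z) ^ ((d : ℕ) * (c : ℕ))) := by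
    rw [← tsum_mul_left]
    refine tsum_congr fun m => ?_
    rw [← tsum_mul_left, ← tsum_mul_left, ← tsum_mul_left]
    refine tsum_congr fun d => ?_
    ring
  rw [tsum_wterm_eq_two_mul hk w hw0 hodd z, tsum_congr fun m => tsum_row hk w z m, key,
    tsum_weighted (k - 1) hr (fun m : ℕ => w (m : ZMod N)) (fun m => hw _)]
  ring

/-- The coefficient series is summable. -/
theorem summable_coeffW [NeZero N] (k : ℕ) (w : ZMod N → ℂ) (z : ℍ) :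
    Summable fun n : ℕ => coeffW k w n * cexp (2 * π * I * z) ^ n := by
  obtain ⟨C, hw⟩ := exists_bound w
  have hr := norm_exp_two_pi_I_lt_one z
  have h1 := (summable_weighted_coeff (k - 1) hr (fun m : ℕ => w (m : ZMod N))
    (fun m => hw _)).mul_left (2 * ((-2 * π * I) ^ k / (k - 1)!))
  rw [← summable_pnat_iff_summable_nat]
  refine h1.congr fun n => ?_
  simp only [coeffW]
  ring

/-- **The `q`-expansion of the weighted lattice sum** (`HasSum` over `ℕ`). -/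
theorem hasSum_wterm [NeZero N] {k : ℕ} (hk : 3 ≤ k) (w : ZMod N → ℂ) (hw0 : w 0 = 0)
    (hodd : ∀ a, w (-a) = (-1) ^ k * w a) (z : ℍ) :
    HasSum (fun n : ℕ => coeffW k w n * cexp (2 * π * I * z) ^ n) (∑' p : ℤ × ℤ, wterm k w z p) := by
  have hs := summable_coeffW k w z
  have h1 := tsum_zero_pnat_eq_tsum_nat hs
  rw [coeffW_zero, zero_mul, zero_add] at h1
  have h2 : ∑' p : ℤ × ℤ, wterm k w z p =
      ∑' n : ℕ, coeffW k w n * cexp (2 * π * I * z) ^ n := by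
    rw [tsum_wterm hk w hw0 hodd z, ← h1, ← tsum_mul_left]
    refine tsum_congr fun n => ?_
    simp only [coeffW]
    ring
  rw [h2]
  exact hs.hasSum

/-- The same in the literal shape of Mathlib's `qExpansion_coeff_unique`. -/
theorem hasSum_wterm_qParam [NeZero N] {k : ℕ} (hk : 3 ≤ k) (w : ZMod N → ℂ) (hw0 : w 0 = 0)
    (hodd : ∀ a, w (-a) = (-1) ^ k * w a) (F : ℍ → ℂ)
    (hF : ∀ z : ℍ, F z = ∑' p : ℤ × ℤ, wterm k w z p) (τ : ℍ) :
    HasSum (fun n : ℕ => coeffW k w n • Function.Periodic.qParam 1 (τ : ℂ) ^ n) (F τ) := by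
  rw [hF τ]
  have h := hasSum_wterm hk w hw0 hodd τ
  have hq : Function.Periodic.qParam 1 (τ : ℂ) = cexp (2 * π * I * τ) := by
    simp [Function.Periodic.qParam]
  simpa [hq, smul_eq_mul] using h

/-- **`q`-coefficients of a modular form given by a weighted lattice sum.** -/
theorem qExpansion_coeff_of_eq_tsum_wterm [NeZero N] {k : ℕ} (hk : 3 ≤ k) (w : ZMod N → ℂ)
    (hw0 : w 0 = 0) (hodd : ∀ a, w (-a) = (-1) ^ k * w a)
    {Γ : Subgroup (GL (Fin 2) ℝ)} {κ : ℤ} {𝓕 : Type*} [FunLike 𝓕 ℍ ℂ] [ModularFormClass 𝓕 Γ κ]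
    (hΓ : (1 : ℝ) ∈ Γ.strictPeriods) (F : 𝓕)
    (hF : ∀ z : ℍ, F z = ∑' p : ℤ × ℤ, wterm k w z p) (n : ℕ) :
    (qExpansion 1 F).coeff n = coeffW k w n :=
  (ModularFormClass.qExpansion_coeff_unique one_pos hΓ
    (hasSum_wterm_qParam hk w hw0 hodd F hF) n).symm

/-- The sum over `Fin 2 → ℤ` with Mathlib's `eisSummand`. -/
theorem tsum_fin_two (k : ℕ) (w : ZMod N → ℂ) (z : ℍ) :
    ∑' v : Fin 2 → ℤ, w ((v 0 : ℤ) : ZMod N) * eisSummand k v z =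
      ∑' p : ℤ × ℤ, wterm k w z p := by
  rw [← (finTwoArrowEquiv ℤ).symm.tsum_eq]
  refine tsum_congr fun p => ?_
  rw [wterm_eq_eisSummand]
  simp [finTwoArrowEquiv_symm_apply]

/-! ### Normalised coefficients, conjugation, Dirichlet characters -/

/-- The normalising constant `2 (-2πi)ᵏ / (k-1)!`. -/
def constW (k : ℕ) : ℂ := 2 * ((-2 * π * I) ^ k / (k - 1)!)

theorem constW_ne_zero (k : ℕ) : constW k ≠ 0 := by
  unfold constW
  have h1 : (-2 * (π : ℂ) * I) ≠ 0 := by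
    simp [Real.pi_ne_zero]
  have h2 : (((k - 1)! : ℕ) : ℂ) ≠ 0 := by
    exact_mod_cast Nat.factorial_ne_zero (k - 1)
  exact mul_ne_zero two_ne_zero (div_ne_zero (pow_ne_zero k h1) h2)

/-- The weighted divisor sum `∑_{m ∣ n} w(m) (n/m)^{k-1}`. -/
def dsum (k : ℕ) (w : ZMod N → ℂ) (n : ℕ) : ℂ :=
  ∑ m ∈ n.divisors, w (m : ZMod N) * ((n / m : ℕ) : ℂ) ^ (k - 1)

theorem coeffW_eq (k : ℕ) (w : ZMod N → ℂ) (n : ℕ) : coeffW k w n = constW k * dsum k w n := rfl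

@[simp] theorem dsum_zero (k : ℕ) (w : ZMod N → ℂ) : dsum k w 0 = 0 := by
  simp [dsum]

@[simp] theorem dsum_one (k : ℕ) (w : ZMod N → ℂ) : dsum k w 1 = w 1 := by
  simp [dsum]

/-- Ring homomorphisms of `ℂ` act on the weight. -/
theorem map_dsum (σ : ℂ →+* ℂ) (k : ℕ) (w : ZMod N → ℂ) (n : ℕ) :
    σ (dsum k w n) = dsum k (fun a => σ (w a)) n := by
  simp [dsum, map_sum]

/-- Integrality: if the weight takes values in a subring, so do the divisor sums. -/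
theorem dsum_mem (R : Subring ℂ) (k : ℕ) (w : ZMod N → ℂ) (hw : ∀ a, w a ∈ R) (n : ℕ) :
    dsum k w n ∈ R :=
  Subring.sum_mem R fun _ _ => Subring.mul_mem R (hw _) (Subring.pow_mem R (natCast_mem R _) _)

/-- A Dirichlet character modulo `N ≠ 1` of parity `k` as a weight. -/
theorem char_zero (χ : DirichletCharacter ℂ N) (hN : N ≠ 1) : χ (0 : ZMod N) = 0 := by
  have : Nontrivial (ZMod N) := ZMod.nontrivial_iff.mpr hN
  exact χ.map_nonunit not_isUnit_zero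

theorem char_neg (χ : DirichletCharacter ℂ N) {k : ℕ} (hχ : χ (-1) = (-1) ^ k) (a : ZMod N) :
    χ (-a) = (-1) ^ k * χ a := by
  rw [← neg_one_mul a, map_mul, hχ]

/-- An odd character has modulus `≠ 1`. -/
theorem ne_one_of_odd (χ : DirichletCharacter ℂ N) (hχ : χ (-1) = -1) : N ≠ 1 := by
  rintro rfl
  have h1 : (-1 : ZMod 1) = 1 := Subsingleton.elim _ _
  rw [h1, map_one] at hχ
  norm_num at hχ

/-- **The `q`-expansion of `∑ χ(m) (m z + n)⁻ᵏ`** for a Dirichlet character of parity `k`. -/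
theorem tsum_char [NeZero N] {k : ℕ} (hk : 3 ≤ k) (χ : DirichletCharacter ℂ N) (hN : N ≠ 1)
    (hχ : χ (-1) = (-1) ^ k) (z : ℍ) :
    ∑' p : ℤ × ℤ, χ (p.1 : ZMod N) * (((p.1 : ℂ) * z + p.2) ^ k)⁻¹ =
      constW k * ∑' n : ℕ+, dsum k (fun a => χ a) n * cexp (2 * π * I * z) ^ (n : ℕ) :=
  tsum_wterm hk (fun a => χ a) (char_zero χ hN) (char_neg χ hχ) z

/-- `HasSum` form for a Dirichlet character of parity `k`. -/
theorem hasSum_char [NeZero N] {k : ℕ} (hk : 3 ≤ k) (χ : DirichletCharacter ℂ N) (hN : N ≠ 1)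
    (hχ : χ (-1) = (-1) ^ k) (z : ℍ) :
    HasSum (fun n : ℕ => constW k * dsum k (fun a => χ a) n * cexp (2 * π * I * z) ^ n)
      (∑' p : ℤ × ℤ, χ (p.1 : ZMod N) * (((p.1 : ℂ) * z + p.2) ^ k)⁻¹) :=
  hasSum_wterm hk (fun a => χ a) (char_zero χ hN) (char_neg χ hχ) z

/-- **`q`-coefficients of a modular form equal to `∑ χ(m) (m z + n)⁻ᵏ`**: the `n`-th coefficient
is `constW k * ∑_{m ∣ n} χ(m) (n/m)^{k-1}`; in particular the first one is `constW k ≠ 0`. -/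
theorem qExpansion_coeff_char [NeZero N] {k : ℕ} (hk : 3 ≤ k) (χ : DirichletCharacter ℂ N)
    (hN : N ≠ 1) (hχ : χ (-1) = (-1) ^ k)
    {Γ : Subgroup (GL (Fin 2) ℝ)} {κ : ℤ} {𝓕 : Type*} [FunLike 𝓕 ℍ ℂ] [ModularFormClass 𝓕 Γ κ]
    (hΓ : (1 : ℝ) ∈ Γ.strictPeriods) (F : 𝓕)
    (hF : ∀ z : ℍ, F z = ∑' p : ℤ × ℤ, χ (p.1 : ZMod N) * (((p.1 : ℂ) * z + p.2) ^ k)⁻¹)
    (n : ℕ) :
    (qExpansion 1 F).coeff n = constW k * dsum k (fun a => χ a) n :=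
  qExpansion_coeff_of_eq_tsum_wterm hk (fun a => χ a) (char_zero χ hN) (char_neg χ hχ) hΓ F hF n


end

end Fermat.Agent.S48.CharEis
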